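/-
S55 / route COUNT, (BE) assembly (helper46): the formal core.

`(C)` for a module `M` (`CData.CProp`) follows from a COUNT:
* `CData.cprop_of_codim_le_one` : if `Φ(M) = H⁰(G, M') ≠ 0` and `im loc²_M` has codimension at
  most one in `P²(M) = ∏_v H²(G_v, M)`, then `(C)` holds for `M`
  (reciprocity puts `PP2(·, φ₀) ≠ 0` in the annihilator of `im loc²`, which is a line);
* `CData.cprop_of_card_le` : the same over `𝔽_p` in counting form: `∑_v h²(G_v, M) ≤ n` and
  `p ^ n ≤ p · |im loc²_M|`;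
* `BELin.le_card_range_of_psi` : the bookkeeping turning a count "for every additive `Ψ` into a
  finite group" into a lower bound for `|im f|`.
(Only the sorry-free lemma `PP2_loc2` of `ResNat` is used.)
-/
import Fermat.Agent.S55.Count.ResNat

set_option autoImplicit false

open CategoryTheory groupCohomology

namespace Fermat.Agent.S55.Count

open Fermat.Agent.S55.Abs

/-! ### Linear algebra -/

namespace BELin

/-- If the range of `f` has codimension at most one and a nonzero functional `Θ₀` kills it, then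
every functional killing it is a multiple of `Θ₀`. -/
theorem exists_smul_of_codim_le_one {k X P : Type*} [Field k] [AddCommGroup X] [Module k X]
    [AddCommGroup P] [Module k P] [Module.Finite k P]
    (f : X →ₗ[k] P) (Θ₀ : P →ₗ[k] k) (hΘ₀ : Θ₀ ≠ 0) (hΘ₀f : ∀ x, Θ₀ (f x) = 0)
    (hcodim : Module.finrank k P ≤ Module.finrank k (LinearMap.range f) + 1)
    (θ : P →ₗ[k] k) (hθ : ∀ x, θ (f x) = 0) : ∃ c : k, θ = c • Θ₀ := by
  classical
  have hle : LinearMap.range f ≤ LinearMap.ker Θ₀ := by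
    rintro _ ⟨x, rfl⟩
    exact hΘ₀f x
  have hker := Module.Dual.finrank_ker_add_one_of_ne_zero hΘ₀
  have heq : LinearMap.range f = LinearMap.ker Θ₀ :=
    Submodule.eq_of_le_of_finrank_le hle (by omega)
  obtain ⟨x₀, hx₀⟩ : ∃ x₀, Θ₀ x₀ ≠ 0 := by
    by_contra hcon
    exact hΘ₀ (LinearMap.ext fun x => not_not.mp fun hx => hcon ⟨x, hx⟩)
  refine ⟨θ x₀ * (Θ₀ x₀)⁻¹, LinearMap.ext fun y => ?_⟩
  have hmem : y - (Θ₀ y * (Θ₀ x₀)⁻¹) • x₀ ∈ LinearMap.ker Θ₀ := by
    rw [LinearMap.mem_ker, map_sub, map_smul, smul_eq_mul, inv_mul_cancel_right₀ hx₀, sub_self]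
  rw [← heq] at hmem
  obtain ⟨x, hx⟩ := hmem
  have h1 := hθ x
  rw [hx, map_sub, map_smul, smul_eq_mul, sub_eq_zero] at h1
  rw [h1, LinearMap.smul_apply, smul_eq_mul]
  ring

/-- Cardinality of the range of a linear map into a finite-dimensional `𝔽_p`-space. -/
theorem card_range_eq {p : ℕ} [Fact p.Prime] {X P : Type*} [AddCommGroup X] [Module (ZMod p) X]
    [AddCommGroup P] [Module (ZMod p) P] [Module.Finite (ZMod p) P] (f : X →ₗ[ZMod p] P) :
    Nat.card (LinearMap.range f) = p ^ Module.finrank (ZMod p) (LinearMap.range f) := by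
  rw [Module.natCard_eq_pow_finrank (K := ZMod p), Nat.card_zmod]

/-- Bookkeeping: a count valid for every additive map into a finite group, applied to an
additive map into the range of `f`. -/
theorem le_card_range_of_psi {p : ℕ} [Fact p.Prime] {X P : Type} [AddCommGroup X]
    [Module (ZMod p) X] [AddCommGroup P] [Module (ZMod p) P] [Module.Finite (ZMod p) P]
    {β : Type} [Mul β] (f : X →ₗ[ZMod p] P) (ψ : β → P)
    (hadd : ∀ b b', ψ (b * b') = ψ b + ψ b') (hr : ∀ b, ∃ x, f x = ψ b) (N : ℕ) (Q : β → Prop)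
    (hcount : ∀ (W : Type) [AddCommGroup W] [Finite W] (Ψ : β → W),
      (∀ b b', Ψ (b * b') = Ψ b + Ψ b') → (∀ b, Ψ b = 0 → Q b) → N ≤ p * Nat.card W)
    (hQ : ∀ b, ψ b = 0 → Q b) : N ≤ p * Nat.card (LinearMap.range f) := by
  have : Finite P := Module.finite_of_finite (ZMod p)
  exact hcount (LinearMap.range f) (fun b => ⟨ψ b, hr b⟩) (fun b b' => Subtype.ext (hadd b b'))
    (fun b hb => hQ b (congrArg Subtype.val hb))

/-- `finrank` of a finite product (stated for `AddCommGroup` fibres). -/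
theorem finrank_pi_eq {k ι : Type*} [Field k] [Fintype ι] (Q : ι → Type*)
    [∀ i, AddCommGroup (Q i)] [∀ i, Module k (Q i)] [∀ i, Module.Finite k (Q i)] :
    Module.finrank k (∀ i, Q i) = ∑ i, Module.finrank k (Q i) :=
  Module.finrank_pi_fintype k

end BELin

variable {k G : Type} [Field k] [Group G]

namespace CData

variable (D : CData k G)

/-- The functional `PP2(·, φ)` is nonzero for `φ ≠ 0` (`pl2_flip_mono` at one place). -/
theorem PP2_flip_ne_zero (h : D.LocHyp) {M : Rep.{0} k G} [Module.Finite k M]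
    (hM : IsDisc D.𝒰 M) {φ : Abs.H0 (D.dual M)} (hφ : φ ≠ 0) : (D.PP2 hM).flip φ ≠ 0 := by
  classical
  intro h0
  apply hφ
  obtain ⟨v₀⟩ := h.nonempty
  have hr : D.r0 (D.dual M) v₀ φ = 0 := by
    apply h.pl2_flip_mono M hM v₀
    intro y₀
    have h1 := congrArg (fun θ : (∀ v, D.LH2 M v) →ₗ[k] k => θ (Pi.single v₀ y₀)) h0
    simp only [LinearMap.flip_apply, LinearMap.zero_apply] at h1
    rw [PP2_apply, Finset.sum_eq_single v₀] at h1
    · simpa using h1
    · intro v _ hv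
      rw [Pi.single_eq_of_ne hv, map_zero, LinearMap.zero_apply]
    · intro hv
      exact absurd (Finset.mem_univ v₀) hv
  apply Subtype.ext
  have h2 := congrArg Subtype.val hr
  simpa [r0] using h2

/-- **(C) from a count.**  If `Φ(M) ≠ 0` and `im loc²_M` has codimension at most one in
`P²(M)`, then `(C)` holds for `M`. -/
theorem cprop_of_codim_le_one (h : D.LocHyp) {M : Rep.{0} k G} [Module.Finite k M]
    (hM : IsDisc D.𝒰 M) (hfin : ∀ v, Module.Finite k (D.LH2 M v))
    (φ₀ : Abs.H0 (D.dual M)) (hφ₀ : φ₀ ≠ 0)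
    (hcodim : ∑ v, Module.finrank k (D.LH2 M v) ≤
      Module.finrank k (LinearMap.range (D.loc2 M)) + 1) : D.CProp hM := by
  classical
  have hΘ₀ne := D.PP2_flip_ne_zero h hM hφ₀
  have hpi : Module.finrank k (∀ v, D.LH2 M v) = ∑ v, Module.finrank k (D.LH2 M v) :=
    @BELin.finrank_pi_eq k D.ι _ _ (fun v => D.LH2 M v)
      (fun v => (inferInstance : AddCommGroup (D.LH2 M v)))
      (fun v => (inferInstance : Module k (D.LH2 M v))) hfin
  intro θ hθ
  have : Module.Finite k (∀ v, D.LH2 M v) := Module.Finite.pi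
  obtain ⟨c, hc⟩ := @BELin.exists_smul_of_codim_le_one k (Abs.H2 D.𝒰 M) (∀ v, D.LH2 M v) _
    (inferInstance : AddCommGroup (Abs.H2 D.𝒰 M)) (inferInstance : Module k (Abs.H2 D.𝒰 M))
    (inferInstance : AddCommGroup (∀ v, D.LH2 M v)) (inferInstance : Module k (∀ v, D.LH2 M v))
    (inferInstance : Module.Finite k (∀ v, D.LH2 M v)) (D.loc2 M) ((D.PP2 hM).flip φ₀) hΘ₀ne
    (fun x => D.PP2_loc2 h hM x φ₀) (hpi.le.trans hcodim) θ hθ
  refine ⟨c • φ₀, fun y => ?_⟩
  rw [hc, map_smul]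
  rfl

end CData

/-- **(C) from a count, over `𝔽_p`.** -/
theorem CData.cprop_of_card_le {p : ℕ} [Fact p.Prime] (D : CData (ZMod p) G) (h : D.LocHyp)
    {M : Rep.{0} (ZMod p) G} [Module.Finite (ZMod p) M] (hM : IsDisc D.𝒰 M)
    (hfin : ∀ v, Module.Finite (ZMod p) (D.LH2 M v))
    (φ₀ : Abs.H0 (D.dual M)) (hφ₀ : φ₀ ≠ 0) (n : ℕ)
    (hsum : ∑ v, Module.finrank (ZMod p) (D.LH2 M v) ≤ n)
    (hcard : p ^ n ≤ p * Nat.card (LinearMap.range (D.loc2 M))) : D.CProp hM := by
  classical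
  have hp : p.Prime := Fact.out
  have : Module.Finite (ZMod p) (∀ v, D.LH2 M v) := Module.Finite.pi
  refine D.cprop_of_codim_le_one h hM hfin φ₀ hφ₀ ?_
  refine hsum.trans ?_
  have h2 : Nat.card (LinearMap.range (D.loc2 M)) =
      p ^ Module.finrank (ZMod p) (LinearMap.range (D.loc2 M)) :=
    @BELin.card_range_eq p _ (Abs.H2 D.𝒰 M) (∀ v, D.LH2 M v)
      (inferInstance : AddCommGroup (Abs.H2 D.𝒰 M)) (inferInstance : Module (ZMod p) (Abs.H2 D.𝒰 M))
      (inferInstance : AddCommGroup (∀ v, D.LH2 M v))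
      (inferInstance : Module (ZMod p) (∀ v, D.LH2 M v))
      (inferInstance : Module.Finite (ZMod p) (∀ v, D.LH2 M v)) (D.loc2 M)
  rw [h2, ← pow_succ'] at hcard
  exact (Nat.pow_le_pow_iff_right hp.one_lt).mp hcard

/-- The count against `im loc²`: if the bound `N ≤ p * |W|` holds for every additive map `Ψ` from
`β` to a finite group `W` whose kernel satisfies `Q`, and `ψ : β → P²(M)` is an additive map with
values in `im loc²_M` whose kernel satisfies `Q`, then `N ≤ p * |im loc²_M|`. -/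
theorem CData.le_card_range_loc2_of_psi {p : ℕ} [Fact p.Prime] (D : CData (ZMod p) G)
    {M : Rep.{0} (ZMod p) G} (hfin : ∀ v, Module.Finite (ZMod p) (D.LH2 M v))
    {β : Type} [Mul β] (ψ : β → ∀ v, D.LH2 M v) (hadd : ∀ b b', ψ (b * b') = ψ b + ψ b')
    (hr : ∀ b, ∃ x, D.loc2 M x = ψ b) (N : ℕ) (Q : β → Prop)
    (hcount : ∀ (W : Type) [AddCommGroup W] [Finite W] (Ψ : β → W),
      (∀ b b', Ψ (b * b') = Ψ b + Ψ b') → (∀ b, Ψ b = 0 → Q b) → N ≤ p * Nat.card W)
    (hQ : ∀ b, ψ b = 0 → Q b) : N ≤ p * Nat.card (LinearMap.range (D.loc2 M)) := by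
  classical
  have : Module.Finite (ZMod p) (∀ v, D.LH2 M v) := Module.Finite.pi
  exact @BELin.le_card_range_of_psi p _ (Abs.H2 D.𝒰 M) (∀ v, D.LH2 M v)
    (inferInstance : AddCommGroup (Abs.H2 D.𝒰 M)) (inferInstance : Module (ZMod p) (Abs.H2 D.𝒰 M))
    (inferInstance : AddCommGroup (∀ v, D.LH2 M v))
    (inferInstance : Module (ZMod p) (∀ v, D.LH2 M v))
    (inferInstance : Module.Finite (ZMod p) (∀ v, D.LH2 M v)) β _ (D.loc2 M) ψ hadd hr N Q
    hcount hQ

end Fermat.Agent.S55.Count
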