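/-
S55 / route COUNT, (BE) assembly (helper46): the family of Kummer characters.

`K ≤ Qb` a field containing a primitive `p`-th root of unity `ω`.  For `b ∈ Kˣ` let
`kRoot p b` be a chosen `p`-th root of `b` and `kChar p ω b = CycloLayer.chi p ω (kRoot p b)` its
Kummer character.  On `G_K = K.fixingSubgroup`:
* `kChar_spec` : `g β = ω ^ κ_b(g) · β`;
* `kChar_mul_left` : `κ_b (g h) = κ_b g + κ_b h`;
* `kChar_mul` : `κ_{b b'} g = κ_b g + κ_{b'} g`;
* `kChar_level` : `κ_b` is right-invariant under `Gal(Qb / ℚ(β))`, a finite level.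
-/
import Fermat.Agent.S55.Count.CycloLayer
import Fermat.Agent.S55.Base.Capit

set_option autoImplicit false

open scoped IntermediateField

namespace Fermat.Agent.S55.Count.BE

open Fermat.Agent.S55.Count.CycloLayer Fermat.Agent.S55.Base.Capit

local notation "Qb" => AlgebraicClosure ℚ
local notation "Gq" => (AlgebraicClosure ℚ ≃ₐ[ℚ] AlgebraicClosure ℚ)

variable (p : ℕ) [Fact p.Prime] {K : IntermediateField ℚ Qb}

/-- A chosen `p`-th root of `b ∈ Kˣ`. -/
noncomputable def kRoot (b : (↥K)ˣ) : Qb := rootP p (((b : ↥K) : Qb))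

/-- The Kummer character of `b ∈ Kˣ` (with respect to `ω`). -/
noncomputable def kChar (ω : Qb) (b : (↥K)ˣ) : Gq → ZMod p := chi p ω (kRoot p b)

variable {p}

theorem kRoot_pow (b : (↥K)ˣ) : kRoot p b ^ p = ((b : ↥K) : Qb) :=
  rootP_pow (Fact.out : p.Prime).pos _

theorem coe_units_ne_zero (b : (↥K)ˣ) : (((b : ↥K)) : Qb) ≠ 0 := by
  intro h
  have : ((b : ↥K)) = 0 := by exact_mod_cast h
  exact Units.ne_zero _ this

theorem kRoot_ne_zero (b : (↥K)ˣ) : kRoot p b ≠ 0 := by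
  intro h
  have h1 := kRoot_pow (p := p) b
  rw [h, zero_pow (Fact.out : p.Prime).ne_zero] at h1
  exact coe_units_ne_zero b h1.symm

theorem fix_kRoot_pow (b : (↥K)ˣ) {g : Gq} (hg : g ∈ K.fixingSubgroup) :
    g (kRoot p b ^ p) = kRoot p b ^ p := by
  rw [kRoot_pow]
  exact (IntermediateField.mem_fixingSubgroup_iff K g).mp hg _ (SetLike.coe_mem _)

theorem kChar_spec {ω : Qb} (hω : IsPrimitiveRoot ω p) (b : (↥K)ˣ) {g : Gq}
    (hg : g ∈ K.fixingSubgroup) : g (kRoot p b) = ω ^ (kChar p ω b g).val * kRoot p b :=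
  chi_spec hω (kRoot_ne_zero b) (fix_kRoot_pow b hg)

theorem kChar_mul_left {ω : Qb} (hω : IsPrimitiveRoot ω p) (hωK : ω ∈ K) (b : (↥K)ˣ) {g h : Gq}
    (hg : g ∈ K.fixingSubgroup) (hh : h ∈ K.fixingSubgroup) :
    kChar p ω b (g * h) = kChar p ω b g + kChar p ω b h :=
  chi_mul hω (kRoot_ne_zero b) ((IntermediateField.mem_fixingSubgroup_iff K g).mp hg ω hωK)
    (fix_kRoot_pow b hg) (fix_kRoot_pow b hh)

theorem kChar_mul {ω : Qb} (hω : IsPrimitiveRoot ω p) (hωK : ω ∈ K) (b b' : (↥K)ˣ) {g : Gq}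
    (hg : g ∈ K.fixingSubgroup) :
    kChar p ω (b * b') g = kChar p ω b g + kChar p ω b' g := by
  have hp : p.Prime := Fact.out
  have : NeZero p := ⟨hp.ne_zero⟩
  apply chi_eq_of_eq hω (kRoot_ne_zero (b * b'))
  -- `β_{bb'} = ε · β_b · β_{b'}` with `ε ^ p = 1`
  set β := kRoot p b with hβ
  set β' := kRoot p b' with hβ'
  set β'' := kRoot p (b * b') with hβ''
  have hβ0 : β ≠ 0 := kRoot_ne_zero b
  have hβ'0 : β' ≠ 0 := kRoot_ne_zero b'
  have hε : (β'' / (β * β')) ^ p = 1 := by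
    rw [div_pow, mul_pow, hβ'', hβ, hβ', kRoot_pow, kRoot_pow, kRoot_pow]
    have : (((b * b' : (↥K)ˣ) : ↥K) : Qb) = ((b : ↥K) : Qb) * ((b' : ↥K) : Qb) := by
      push_cast
      rfl
    rw [this]
    exact div_self (mul_ne_zero (coe_units_ne_zero b) (coe_units_ne_zero b'))
  obtain ⟨i, -, hi⟩ := hω.eq_pow_of_pow_eq_one hε
  have hgω : g ω = ω := (IntermediateField.mem_fixingSubgroup_iff K g).mp hg ω hωK
  have hβ''eq : β'' = ω ^ i * (β * β') := by
    rw [hi, div_mul_cancel₀ _ (mul_ne_zero hβ0 hβ'0)]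
  have e1 := kChar_spec hω b hg
  have e2 := kChar_spec hω b' hg
  rw [← hβ] at e1
  rw [← hβ'] at e2
  have hpow : ω ^ (kChar p ω b g + kChar p ω b' g).val =
      ω ^ (kChar p ω b g).val * ω ^ (kChar p ω b' g).val := by
    rw [← pow_add, ZMod.val_add, ← pow_eq_pow_mod _ hω.pow_eq_one]
  rw [hpow]
  conv_lhs => rw [hβ''eq, map_mul, map_pow, hgω, map_mul, e1, e2]
  rw [hβ''eq]
  ring

/-- `κ_b` is right-invariant under a finite level. -/
theorem kChar_level (ω : Qb) (b : (↥K)ˣ) :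
    ∃ F : IntermediateField ℚ Qb, FiniteDimensional ℚ F ∧
      ∀ g s : Gq, s ∈ F.fixingSubgroup → kChar p ω b (g * s) = kChar p ω b g := by
  have halg : IsIntegral ℚ (kRoot p b) :=
    ((AlgebraicClosure.isAlgebraic ℚ).isAlgebraic (kRoot p b)).isIntegral
  refine ⟨ℚ⟮kRoot p b⟯, IntermediateField.adjoin.finiteDimensional halg, fun g s hs => ?_⟩
  exact chi_mul_right
    ((IntermediateField.mem_fixingSubgroup_iff _ s).mp hs _
      (IntermediateField.mem_adjoin_simple_self ℚ _))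

end Fermat.Agent.S55.Count.BE
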