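/-
S55 / route COUNT, (BE) assembly (helper46): the local classes of Shapiro cochains.

`G` a group with two level families `𝒰S` (coarse) and `𝒰F` (fine), local groups `loc v : G_v → G`
which are level maps for both, `U ≤ G` open, `A : Rep k U`, `R` a retraction.

* `indH2 𝒰 R hU` : the linear map `Z²_𝒰(U, A) → H²_𝒰(G, coind A)`, `y ↦ [ind₂ y]`;
* `rH2_indH2_eq` : if `yS = yF + d w` with `w` a fine-level cochain, the local classes of
  `ind₂ yS` (a coarse-level class) and `ind₂ yF` agree;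
* `mem_B2_of_rH2_indH2_eq_zero` : a vanishing local class means a local level coboundary;
* `cupU_mem_Z2` : the cup `κ ∪ χ` of two level characters of `U` is a level 2-cocycle
  (trivial coefficients);
* `CData.le_card_range_loc2_of_shapiro` : the count against `im loc²` for `M = coind_U A`, fed by
  an additive family `z b` of fine-level cocycles of `U` such that every `z b` is cohomologous
  (by a fine-level cochain) to a coarse-level cocycle.
-/
import Fermat.Agent.S55.Count.BE.Core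
import Fermat.Agent.S55.Shapiro.ArithFacts

set_option autoImplicit false

open CategoryTheory groupCohomology

namespace Fermat.Agent.S55.Count.BE

open Fermat.Agent.S55.Abs Fermat.Agent.S55.Shapiro Fermat.Agent.S55.Count

section Abstract

variable {k : Type} [Field k] {G : Type} [Group G]

/-- The class of `ind₂ y` in level cohomology, as a linear map on the level cocycles of `U`. -/
noncomputable def indH2 (𝒰 : LevelFamily G) {U : Subgroup G} {A : Rep.{0} k U} (R : Retr U)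
    (hU : ∃ W ∈ 𝒰.sets, W ≤ U) :
    ↥(Z2 (subLevel 𝒰 U) A) →ₗ[k] Abs.H2 𝒰 (Rep.coind U.subtype A) :=
  (Submodule.mkQ _).comp
    (LinearMap.codRestrict (Z2 𝒰 (Rep.coind U.subtype A))
      ((ind₂ A R).comp (Submodule.subtype _)) (fun y => ind₂_mem_Z2 R hU y.2))

theorem indH2_apply (𝒰 : LevelFamily G) {U : Subgroup G} {A : Rep.{0} k U} (R : Retr U)
    (hU : ∃ W ∈ 𝒰.sets, W ≤ U) (y : ↥(Z2 (subLevel 𝒰 U) A)) :
    indH2 𝒰 R hU y = Submodule.Quotient.mk ⟨ind₂ A R y.1, ind₂_mem_Z2 R hU y.2⟩ := rfl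

variable (𝒰S 𝒰F : LevelFamily G) {ι : Type} {Gv : ι → Type} [∀ v, Group (Gv v)]
  (loc : ∀ v, Gv v →* G) (𝒰v : ∀ v, LevelFamily (Gv v))
  (hlocS : ∀ v, IsLevelMap (𝒰v v) 𝒰S (loc v)) (hlocF : ∀ v, IsLevelMap (𝒰v v) 𝒰F (loc v))
  {U : Subgroup G} {A : Rep.{0} k U} (R : Retr U)
  (hUS : ∃ W ∈ 𝒰S.sets, W ≤ U) (hUF : ∃ W ∈ 𝒰F.sets, W ≤ U)

/-- If `yS = yF + d w` with `w` a fine-level cochain of `U`, the local classes of `ind₂ yS` and
`ind₂ yF` agree. -/
theorem rH2_indH2_eq (v : ι) (yS : ↥(Z2 (subLevel 𝒰S U) A)) (yF : ↥(Z2 (subLevel 𝒰F U) A))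
    {w : U → A} (hw : IsLev₁ (subLevel 𝒰F U) w) (h : yS.1 = yF.1 + (d₁₂ A).hom w) :
    rH2 𝒰S loc 𝒰v hlocS (Rep.coind U.subtype A) v (indH2 𝒰S R hUS yS) =
      rH2 𝒰F loc 𝒰v hlocF (Rep.coind U.subtype A) v (indH2 𝒰F R hUF yF) := by
  rw [indH2_apply, indH2_apply, rH2_mk, rH2_mk, Submodule.Quotient.eq]
  have key := ArithFacts.ind₂_d₁₂_comp_mem_B2 (hlocF v) R hUF hw
  have e : (fun p : Gv v × Gv v => ind₂ A R ((d₁₂ A).hom w) (loc v p.1, loc v p.2)) =
      res₂ loc (Rep.coind U.subtype A) v (ind₂ A R yS.1) -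
        res₂ loc (Rep.coind U.subtype A) v (ind₂ A R yF.1) := by
    rw [← map_sub, ← map_sub, h, add_sub_cancel_left]
    rfl
  rw [e] at key
  exact key

/-- A vanishing local class is a local level coboundary. -/
theorem mem_B2_of_rH2_indH2_eq_zero (v : ι) (yF : ↥(Z2 (subLevel 𝒰F U) A))
    (h0 : rH2 𝒰F loc 𝒰v hlocF (Rep.coind U.subtype A) v (indH2 𝒰F R hUF yF) = 0) :
    (fun p : Gv v × Gv v => ind₂ A R yF.1 (loc v p.1, loc v p.2)) ∈
      B2 (𝒰v v) (Rep.res (loc v) (Rep.coind U.subtype A)) := by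
  rw [indH2_apply, rH2_mk, Submodule.Quotient.mk_eq_zero] at h0
  exact h0

end Abstract

section Cup

variable {k : Type} [Field k] {G : Type} [Group G]

/-- The cup product of two functions on `G`, restricted to `U`. -/
def cupU (U : Subgroup G) (κ χ : G → k) : ↥U × ↥U → k := fun x => κ (x.1 : G) * χ (x.2 : G)

theorem cupU_apply (U : Subgroup G) (κ χ : G → k) (g h : ↥U) :
    cupU U κ χ (g, h) = κ (g : G) * χ (h : G) := rfl

/-- The cup of two level characters of `U` is a level 2-cocycle of `U` with trivial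
coefficients. -/
theorem cupU_mem_Z2 (𝒰 : LevelFamily G) (U : Subgroup G) (κ χ : G → k)
    (hκ : ∀ g ∈ U, ∀ h ∈ U, κ (g * h) = κ g + κ h)
    (hχ : ∀ g ∈ U, ∀ h ∈ U, χ (g * h) = χ g + χ h)
    (hκl : ∃ W ∈ 𝒰.sets, ∀ g s : G, s ∈ W → κ (g * s) = κ g)
    (hχl : ∃ W ∈ 𝒰.sets, ∀ g s : G, s ∈ W → χ (g * s) = χ g) :
    cupU U κ χ ∈ Z2 (subLevel 𝒰 U) (Rep.trivial k ↥U k) := by
  refine ⟨?_, ?_⟩
  · obtain ⟨W₁, hW₁, h₁⟩ := hκl
    obtain ⟨W₂, hW₂, h₂⟩ := hχl
    obtain ⟨W, hW, hle⟩ := 𝒰.inter W₁ hW₁ W₂ hW₂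
    refine (isLev₂_subLevel_iff _).2 ⟨W, hW, fun g g' s s' hs hs' => ?_⟩
    show κ ((g : G) * (s : G)) * χ ((g' : G) * (s' : G)) = κ (g : G) * χ (g' : G)
    rw [h₁ _ _ (hle hs).1, h₂ _ _ (hle hs').2]
  · refine (mem_cocycles₂_iff (A := Rep.trivial k ↥U k) (cupU U κ χ)).2 ?_
    intro g h j
    show κ ((g : G) * (h : G)) * χ (j : G) + κ (g : G) * χ (h : G) =
      κ (h : G) * χ (j : G) + κ (g : G) * χ ((h : G) * (j : G))
    rw [hκ _ g.2 _ h.2, hχ _ h.2 _ j.2]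
    ring

end Cup

section Count

variable {p : ℕ} [Fact p.Prime] {G : Type} [Group G]

/-- **The count against `im loc²` for a coinduced module.**  `z : β → Z²_fine(U, A)` additive,
every `z b` cohomologous by a fine-level cochain to a coarse-level cocycle (so that the local
classes of `ind₂ (z b)` are the localisations of a global class), and a count `N ≤ p * |W|` valid
for every additive `Ψ : β → W` whose kernel satisfies `Q`, where `Q b` follows from the local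
triviality of `ind₂ (z b)` at all `v`.  Then `N ≤ p * |im loc²|`. -/
theorem _root_.Fermat.Agent.S55.Count.CData.le_card_range_loc2_of_shapiro
    (D : CData (ZMod p) G) (𝒰F : LevelFamily G)
    (hlocF : ∀ v, IsLevelMap (D.𝒰v v) 𝒰F (D.loc v))
    {U : Subgroup G} (A : Rep.{0} (ZMod p) U) (R : Retr U)
    (hUS : ∃ W ∈ D.𝒰.sets, W ≤ U) (hUF : ∃ W ∈ 𝒰F.sets, W ≤ U)
    (M : Rep.{0} (ZMod p) G) (hM : M = Rep.coind U.subtype A)
    (hfin : ∀ v, Module.Finite (ZMod p) (D.LH2 M v))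
    {β : Type} [Mul β] (z : β → ↥(Z2 (subLevel 𝒰F U) A))
    (hz : ∀ b b', z (b * b') = z b + z b')
    (hr : ∀ b, ∃ (yS : ↥(Z2 (subLevel D.𝒰 U) A)) (w : U → A),
      IsLev₁ (subLevel 𝒰F U) w ∧ yS.1 = (z b).1 + (d₁₂ A).hom w)
    (N : ℕ) (Q : β → Prop)
    (hcount : ∀ (W : Type) [AddCommGroup W] [Finite W] (Ψ : β → W),
      (∀ b b', Ψ (b * b') = Ψ b + Ψ b') → (∀ b, Ψ b = 0 → Q b) → N ≤ p * Nat.card W)
    (hQ : ∀ b, (∀ v, (fun x : D.Gv v × D.Gv v => ind₂ A R (z b).1 (D.loc v x.1, D.loc v x.2)) ∈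
      B2 (D.𝒰v v) (Rep.res (D.loc v) (Rep.coind U.subtype A))) → Q b) :
    N ≤ p * Nat.card (LinearMap.range (D.loc2 M)) := by
  classical
  subst hM
  let ψ : β → ∀ v, D.LH2 (Rep.coind U.subtype A) v := fun b v =>
    rH2 𝒰F D.loc D.𝒰v hlocF (Rep.coind U.subtype A) v (indH2 𝒰F R hUF (z b))
  refine D.le_card_range_loc2_of_psi hfin ψ ?_ ?_ N Q hcount ?_
  · intro b b'
    funext v
    show rH2 𝒰F D.loc D.𝒰v hlocF (Rep.coind U.subtype A) v (indH2 𝒰F R hUF (z (b * b'))) =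
      rH2 𝒰F D.loc D.𝒰v hlocF (Rep.coind U.subtype A) v (indH2 𝒰F R hUF (z b)) +
        rH2 𝒰F D.loc D.𝒰v hlocF (Rep.coind U.subtype A) v (indH2 𝒰F R hUF (z b'))
    rw [hz, map_add, map_add]
  · intro b
    obtain ⟨yS, w, hw, h⟩ := hr b
    refine ⟨indH2 D.𝒰 R hUS yS, ?_⟩
    funext v
    exact rH2_indH2_eq D.𝒰 𝒰F D.loc D.𝒰v D.hloc hlocF R hUS hUF v yS (z b) hw h
  · intro b hb
    refine hQ b (fun v => ?_)
    exact mem_B2_of_rH2_indH2_eq_zero 𝒰F D.loc D.𝒰v hlocF R hUF v (z b) (congrFun hb v)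

end Count

end Fermat.Agent.S55.Count.BE
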