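/-
S55 / route COUNT (helper46): **(BE)**, the `(C)`-clause of `CountBase` for a cofinal family of
base modules `M0(K)`.

Assembly of the landed bricks:
* (L)  `CycloLayer.exists_layer_gen` : a cyclotomic layer `K ⊂ M'` of degree `p` above `F`, all
       places above `S` non-split, with its character `χ`;
* K-side `BECup.be_K_cup` : the group `B` of `T`-units and the count for additive maps `Ψ`;
* (B)  `CFT.Count.BrS.brS` : the level-`S` descent cocycle of `κ_b ∪ χ`, `b ∈ B`;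
* (Sh) Shapiro cochains (`ind₂`, `ArithFacts`), local triviality (`HPQLocal.sh₂_locTriv`);
* (H)  `EPLoc.finrank_LH2_M0`, `EPLoc.sum_finrank_LH2_M0` : `∑_v h²(G_v, M0(K)) = |S_K|`;
* the formal core `Count/BE/Core`.
-/
import Fermat.Agent.S55.Count.Top
import Fermat.Agent.S55.Count.EPLoc
import Fermat.Agent.S55.Count.BE.Core
import Fermat.Agent.S55.Count.BE.Kummer
import Fermat.Agent.S55.Count.BE.ShLocal
import Fermat.Agent.S55.Shapiro.HPQLocal
import Fermat.Agent.CFT.Count.BECup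
import Fermat.Agent.CFT.Count.BrS

set_option autoImplicit false

open CategoryTheory groupCohomology ExtCitation

namespace Fermat.Agent.S55.Count.BE

open Fermat.Agent.S55.Abs Fermat.Agent.S55.Shapiro Fermat.Agent.S55.Count
  Fermat.Agent.CFT.Global Fermat.Agent.CFT.Count

local notation "Qb" => AlgebraicClosure ℚ

variable {p : ℕ} [Fact p.Prime] (S : Finset Nat.Primes)

/-- The fine level family on `G_ℚ` (all finite levels). -/
noncomputable abbrev fullLevel : LevelFamily GQ := localLevel (MonoidHom.id GQ)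

theorem isLevelMap_fullLevel {H : Type} [Group H] (r : H →* GQ) :
    IsLevelMap (localLevel r) fullLevel r := by
  rintro U ⟨F, hF, rfl⟩
  exact ⟨_, ⟨F, hF, rfl⟩, fun x hx => hx⟩

theorem exists_le_fixingSubgroup_full (K : IntermediateField ℚ Qb) [FiniteDimensional ℚ K] :
    ∃ W ∈ fullLevel.sets, W ≤ K.fixingSubgroup :=
  ⟨_, ⟨K, inferInstance, rfl⟩, fun _ hx => hx⟩

theorem mem_fullLevel_sets (F : IntermediateField ℚ Qb) [FiniteDimensional ℚ F] :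
    F.fixingSubgroup.comap (MonoidHom.id GQ) ∈ fullLevel.sets :=
  ⟨F, inferInstance, rfl⟩

/-- A cyclic layer `K ⊂ M'` of degree `p`, unramified outside `S`, with its character `χ`
(`ker χ|G_K = Gal(Qb/M')`), `μ_p ⊂ K`, all places above `S` non-split. -/
structure Layer (p : ℕ) [Fact p.Prime] (S : Finset Nat.Primes) : Type where
  K : IntermediateField ℚ Qb
  M' : IntermediateField ℚ Qb
  hKM : K ≤ M'
  hK : K.IsUnramifiedOutside S
  hM' : M'.IsUnramifiedOutside S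
  χ : GQ → ZMod p
  ω : Qb
  s : GQ
  hsK : s ∈ K.fixingSubgroup
  hs1 : χ s = 1
  hω : IsPrimitiveRoot ω p
  hωK : ω ∈ K
  hcyc : Glue.cycloField p ≤ K
  hχadd : ∀ σ ∈ K.fixingSubgroup, ∀ τ ∈ K.fixingSubgroup, χ (σ * τ) = χ σ + χ τ
  hχM' : ∀ σ τ, τ ∈ M'.fixingSubgroup → χ (σ * τ) = χ σ
  hχker : ∀ σ ∈ K.fixingSubgroup, (χ σ = 0 ↔ σ ∈ M'.fixingSubgroup)
  hns : ∀ q ∈ S, ∀ A : ValuationSubring Qb, A.LiesOverPrime ((q : Nat.Primes) : ℕ) →
    ∃ σ ∈ A.decompositionSubgroup ℚ, σ ∈ K.fixingSubgroup ∧ χ σ ≠ 0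

namespace Layer

variable {S} (L : Layer p S)

instance finiteDimensional_K : FiniteDimensional ℚ ↥L.K := L.hK.1

instance numberField_K : NumberField ↥L.K :=
  { to_charZero := inferInstance, to_finiteDimensional := L.hK.1 }

instance finiteDimensional_M' : FiniteDimensional ℚ ↥L.M' := L.hM'.1

/-- The trivial `G_K`-module `𝔽_p`. -/
noncomputable abbrev Tr : Rep.{0} (ZMod p) ↥L.K.fixingSubgroup :=
  Rep.trivial (ZMod p) ↥L.K.fixingSubgroup (ZMod p)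

/-- The cup `κ_b ∪ χ` is a fine-level 2-cocycle of `G_K`. -/
theorem cup_kChar_mem_Z2 (b : (↥L.K)ˣ) :
    cupU L.K.fixingSubgroup (kChar p L.ω b) L.χ ∈
      Z2 (subLevel fullLevel L.K.fixingSubgroup) L.Tr := by
  obtain ⟨Fκ, hFκ, hκl⟩ := kChar_level (p := p) L.ω b
  exact cupU_mem_Z2 fullLevel L.K.fixingSubgroup (kChar p L.ω b) L.χ
    (fun g hg h hh => kChar_mul_left L.hω L.hωK b hg hh) L.hχadd
    ⟨_, ⟨Fκ, hFκ, rfl⟩, fun g s hs => hκl g s hs⟩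
    ⟨_, ⟨L.M', L.hM'.1, rfl⟩, fun g s hs => L.hχM' g s hs⟩

/-- The cup cocycle of `b`. -/
noncomputable def cupZ (b : (↥L.K)ˣ) : ↥(Z2 (subLevel fullLevel L.K.fixingSubgroup) L.Tr) :=
  ⟨cupU L.K.fixingSubgroup (kChar p L.ω b) L.χ, L.cup_kChar_mem_Z2 b⟩

theorem cupZ_mul (b b' : (↥L.K)ˣ) : L.cupZ (b * b') = L.cupZ b + L.cupZ b' := by
  apply Subtype.ext
  funext x
  show kChar p L.ω (b * b') (x.1 : GQ) * L.χ (x.2 : GQ) =
    kChar p L.ω b (x.1 : GQ) * L.χ (x.2 : GQ) + kChar p L.ω b' (x.1 : GQ) * L.χ (x.2 : GQ)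
  rw [kChar_mul L.hω L.hωK b b' x.1.2]
  ring

/-- **Range**: for `b` satisfying the local conditions of (BrS), the fine-level cocycle
`κ_b ∪ χ` is cohomologous, by a fine-level cochain, to a level-`S` cocycle of `G_K`. -/
theorem exists_yS (hpS : pPrime p ∈ S) (b : (↥L.K)ˣ)
    (hloc : ∀ q : Nat.Primes, q ∉ S → ∀ A : ValuationSubring Qb, A.LiesOverPrime (q : ℕ) →
      (∃ x : ↥L.K, A.valuation ((((b : (↥L.K)ˣ) : ↥L.K) : Qb) * (x : Qb) ^ p) = 1) ∨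
      (∀ σ : ↥L.K.fixingSubgroup, (σ : GQ) ∈ A.decompositionSubgroup ℚ → L.χ σ = 0)) :
    ∃ (yS : ↥(Z2 (subLevel (globalLevel S) L.K.fixingSubgroup) L.Tr))
      (w : ↥L.K.fixingSubgroup → L.Tr),
      IsLev₁ (subLevel fullLevel L.K.fixingSubgroup) w ∧
        yS.1 = (L.cupZ b).1 + (d₁₂ L.Tr).hom w := by
  have hζ : IsPrimitiveRoot (⟨L.ω, L.hωK⟩ : ↥L.K) p :=
    IsPrimitiveRoot.of_map_of_injective (f := L.K.val) L.hω L.K.val.injective
  obtain ⟨y, u, ⟨F', hF', -, hy⟩, ⟨F'', hF'', hu⟩, hyu⟩ :=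
    BrS.brS S hpS L.K L.hK ⟨L.ω, L.hωK⟩ hζ L.χ L.hχadd L.M' L.hM'
      (fun g s hs => L.hχM' g s hs) ((b : (↥L.K)ˣ) : ↥L.K) (Units.ne_zero b) (kRoot p b)
      (kRoot_pow b) (kChar p L.ω b) (fun s hs => kChar_spec L.hω b hs)
      (fun q hq A hA => (hloc q hq A hA).imp id (fun h s hsD hsK => h ⟨s, hsK⟩ hsD))
  -- the restriction of `u` to `G_K`
  let w : ↥L.K.fixingSubgroup → L.Tr := fun g => u (g : GQ)
  have hw : IsLev₁ (subLevel fullLevel L.K.fixingSubgroup) w :=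
    (isLev₁_subLevel_iff _).2 ⟨_, ⟨F'', hF'', rfl⟩, fun g s hs => hu (g : GQ) (s : GQ) hs⟩
  have hyeq : (fun x : ↥L.K.fixingSubgroup × ↥L.K.fixingSubgroup => y ((x.1 : GQ), (x.2 : GQ))) =
      (L.cupZ b).1 + (d₁₂ L.Tr).hom w := by
    funext ⟨g, h⟩
    have h1 := hyu (g : GQ) g.2 (h : GQ) h.2
    show y ((g : GQ), (h : GQ)) = kChar p L.ω b (g : GQ) * L.χ (h : GQ) +
      (d₁₂ L.Tr).hom w (g, h)
    rw [d₁₂_hom_apply, h1]
    show _ = _ + (u (h : GQ) - u ((g : GQ) * (h : GQ)) + u (g : GQ))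
    ring
  have hlev : IsLev₂ (subLevel (globalLevel S) L.K.fixingSubgroup)
      (fun x : ↥L.K.fixingSubgroup × ↥L.K.fixingSubgroup => y ((x.1 : GQ), (x.2 : GQ))) :=
    (isLev₂_subLevel_iff _).2 ⟨_, ⟨F', hF', rfl⟩, fun g g' s s' hs hs' =>
      hy (g : GQ) g.2 (g' : GQ) g'.2 (s : GQ) hs (s' : GQ) hs'⟩
  have hcoc : (fun x : ↥L.K.fixingSubgroup × ↥L.K.fixingSubgroup =>
      y ((x.1 : GQ), (x.2 : GQ))) ∈ cocycles₂ L.Tr := by
    rw [hyeq]
    refine Submodule.add_mem _ (L.cupZ b).2.2 ?_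
    exact coboundaries₂_le_cocycles₂ L.Tr ⟨w, rfl⟩
  exact ⟨⟨_, ⟨hlev, hcoc⟩⟩, w, hw, hyeq⟩

/-- **Kernel**: if the Shapiro cocycle `ind₂ (κ_b ∪ χ)` is a local level coboundary at `q`, then
at every valuation subring `A` over `q` the cup `κ_b ∪ χ` is, on `D(A) ⊓ G_K`, the coboundary of
a level-constant cochain (the shape of `BECup.be_K_cup`). -/
theorem cup_identity_of_locTriv (R : Retr L.K.fixingSubgroup) (b : (↥L.K)ˣ) (q : Nat.Primes)
    (hq : (fun x : primeLocalGaloisGroup q × primeLocalGaloisGroup q =>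
        ind₂ L.Tr R (L.cupZ b).1 (primeLocalToGlobal q x.1, primeLocalToGlobal q x.2)) ∈
      B2 (localLevel (primeLocalToGlobal q))
        (Rep.res (primeLocalToGlobal q) (Rep.coind L.K.fixingSubgroup.subtype L.Tr)))
    (A : ValuationSubring Qb) (hA : A.LiesOverPrime (q : ℕ)) :
    ∃ (β : Qb) (κ : GQ → ZMod p)
      (c : ↥(A.decompositionSubgroup ℚ ⊓ L.K.fixingSubgroup) → ZMod p),
      β ^ p = ((((b : (↥L.K)ˣ) : ↥L.K)) : Qb) ∧
      (∀ g ∈ L.K.fixingSubgroup, g β = L.ω ^ (κ g).val * β) ∧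
      IsLevelConstant₁
        (Subgroup.subtype (A.decompositionSubgroup ℚ ⊓ L.K.fixingSubgroup)) c ∧
      ∀ g h : ↥(A.decompositionSubgroup ℚ ⊓ L.K.fixingSubgroup),
        κ (g : GQ) * (fun g : ↥L.K.fixingSubgroup => L.χ g) ⟨h, h.2.2⟩ =
          c g + c h - c (g * h) := by
  have hUF := exists_le_fixingSubgroup_full L.K
  have hZ := ind₂_mem_Z2 R hUF (L.cupZ b).2
  obtain ⟨t, ht, hst⟩ := HPQLocal.sh₂_locTriv L.K.fixingSubgroup L.Tr hZ.2
    ((isLevelConstant₂_iff (MonoidHom.id GQ) _).2 hZ.1) q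
    (HPQLocal.exists_of_mem_B2 (Rep.coind L.K.fixingSubgroup.subtype L.Tr)
      (primeLocalToGlobal q) hq) A hA
  refine ⟨kRoot p b, kChar p L.ω b, t, kRoot_pow b, fun g hg => kChar_spec L.hω b hg, ht,
    fun g h => ?_⟩
  have h1 := hst g h
  rw [sh₂_ind₂] at h1
  have h2 : (L.cupZ b).1 (⟨g, g.2.2⟩, ⟨h, h.2.2⟩) = kChar p L.ω b (g : GQ) * L.χ (h : GQ) := rfl
  rw [h2] at h1
  show kChar p L.ω b (g : GQ) * L.χ (h : GQ) = t g + t h - t (g * h)
  rw [h1]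
  show t h - t (g * h) + t g = t g + t h - t (g * h)
  ring

/-- **(BE)(count)**: `p ^ |S_K| ≤ p · |im loc²_{M0(K)}|`. -/
theorem pow_card_SK_le (hpS : pPrime p ∈ S) (inv : InvS p S) (M : Rep.{0} (ZMod p) GQ)
    (hM : M = M0 (ZMod p) L.K.fixingSubgroup)
    (hfin : ∀ v, Module.Finite (ZMod p) ((dataS p S hpS inv).LH2 M v)) :
    p ^ (CountV.SK S L.K).card ≤
      p * Nat.card (LinearMap.range ((dataS p S hpS inv).loc2 M)) := by
  classical
  obtain ⟨B, hB1, hB2⟩ := BECup.be_K_cup.{0} S L.K L.M' L.hKM L.hM'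
    (fun g : ↥L.K.fixingSubgroup => L.χ g)
    (fun g h => L.hχadd g g.2 h h.2) (fun g => L.hχker g g.2) ⟨L.s, L.hsK⟩ L.hs1
    (fun q hq A hA => by
      obtain ⟨σ, hσD, hσK, hσ⟩ := L.hns q hq A hA
      exact ⟨⟨σ, hσK⟩, hσD, hσ⟩) L.ω L.hω L.hωK
  obtain ⟨R⟩ := Retr.nonempty L.K.fixingSubgroup
  refine CData.le_card_range_loc2_of_shapiro (dataS p S hpS inv) fullLevel
    (fun q => isLevelMap_fullLevel (primeLocalToGlobal q.1)) L.Tr R
    ⟨_, ⟨L.K, L.hK, rfl⟩, le_rfl⟩ (exists_le_fixingSubgroup_full L.K) M hM hfin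
    (fun b : ↥B => L.cupZ b.1) (fun b b' => L.cupZ_mul b.1 b'.1) ?_ _ _
    (fun W _ _ Ψ => hB2 W Ψ) ?_
  · intro b
    exact L.exists_yS hpS b.1 (hB1 b.1 b.2)
  · intro b hb q hqS A hA
    exact L.cup_identity_of_locTriv R b.1 q (hb ⟨q, hqS⟩) A hA

end Layer

/-- `Φ(M0(K)) = H⁰(G_ℚ, M0(K)') ≠ 0` when `μ_p ⊂ K`. -/
theorem exists_H0_dualTwist_ne_zero (K : IntermediateField ℚ Qb) [FiniteDimensional ℚ K]
    (hcyc : Glue.cycloField p ≤ K) :
    ∃ φ₀ : Abs.H0 ((M0 (ZMod p) K.fixingSubgroup).dualTwist (cycloChar p)), φ₀ ≠ 0 := by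
  obtain ⟨R⟩ := Retr.nonempty K.fixingSubgroup
  let m₀ : M0 (ZMod p) K.fixingSubgroup :=
    ind₀ (Rep.trivial (ZMod p) ↥K.fixingSubgroup (ZMod p)) R (1 : ZMod p)
  have hinv : ∀ g, (M0 (ZMod p) K.fixingSubgroup).ρ g m₀ = m₀ := by
    intro g
    apply Subtype.ext
    funext x
    rw [coind_ρ_apply]
    rfl
  have hne : m₀ ≠ 0 := by
    intro h0
    have h1 := congrArg (sh₀ K.fixingSubgroup (Rep.trivial (ZMod p) ↥K.fixingSubgroup (ZMod p))) h0
    rw [sh₀_ind₀, map_zero] at h1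
    exact one_ne_zero h1
  refine ⟨⟨CountAbs.dualEquiv K hcyc m₀, fun g => ?_⟩, ?_⟩
  · rw [← CountAbs.dualEquiv_ρ, hinv]
  · intro h0
    apply hne
    have h1 := congrArg Subtype.val h0
    exact (CountAbs.dualEquiv K hcyc).map_eq_zero_iff.mp h1

/-- **(BE)**: the `(C)`-clause of `CountBase`, for `p` odd. -/
theorem be_clause (hp2 : p ≠ 2) (hpS : pPrime p ∈ S) (inv : InvS p S)
    (h : (dataS p S hpS inv).LocHyp)
    (F : IntermediateField ℚ Qb) (hF : F.IsUnramifiedOutside S) :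
    ∃ K : IntermediateField ℚ Qb, F ≤ K ∧ ∃ hK : K.IsUnramifiedOutside S,
      (dataS p S hpS inv).CProp (M := M0 (ZMod p) K.fixingSubgroup)
        (isDisc_coindTriv (globalLevel S) K.fixingSubgroup ⟨_, ⟨K, hK, rfl⟩, le_rfl⟩
          (ZMod p)) := by
  obtain ⟨K, M', hKM, χ, ω, η, s, hsK, hs1, hK, hM', hFK, hcyc, -, -, hω, hωK, -, -, -, -,
    hχadd, hχM', hχker, hns, -⟩ := CycloLayer.exists_layer_gen p hp2 S hpS F hF
  let L : Layer p S :=
    { K := K, M' := M', hKM := hKM, hK := hK, hM' := hM', χ := χ, ω := ω, s := s, hsK := hsK,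
      hs1 := hs1, hω := hω, hωK := hωK, hcyc := hcyc, hχadd := hχadd, hχM' := hχM',
      hχker := hχker, hns := hns }
  refine ⟨K, hFK, hK, ?_⟩
  have hnf : NumberField ↥K := L.numberField_K
  have hfinM0 : Module.Finite (ZMod p) (M0 (ZMod p) K.fixingSubgroup) := EPLoc.finite_M0 p K
  have hfin : ∀ v, Module.Finite (ZMod p)
      ((dataS p S hpS inv).LH2 (M0 (ZMod p) K.fixingSubgroup) v) :=
    fun v => (EPLoc.finrank_LH2_M0 p K S hpS hcyc hK inv h v).1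
  have hsum := EPLoc.sum_finrank_LH2_M0 p K S hpS hcyc hK inv h
  obtain ⟨φ₀, hφ₀⟩ := exists_H0_dualTwist_ne_zero (p := p) K hcyc
  exact CData.cprop_of_card_le (dataS p S hpS inv) h _ hfin φ₀ hφ₀ _ hsum.le
    (L.pow_card_SK_le hpS inv _ rfl hfin)

end Fermat.Agent.S55.Count.BE
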