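import Mathlib
import Fermat.Prelude.Def_GroupCohomology_ContinuousUnramified
import Fermat.Agent.S14.Wiring.ValRing
import Fermat.Agent.S55.Glue.PlacesAbove
import Fermat.Agent.S55.Count.BrS.Ord
import Fermat.Agent.CFT.Count.BEHyperplane

/-!
# Route COUNT, (BE) assembly, input (V): the local hypothesis of (BrS)

`Qb = AlgebraicClosure ℚ`, `K ≤ M` number fields inside `Qb`, `M / K` Galois of prime degree `p`,
`M` unramified outside `S`; `χ` a character of `G_K = Gal(Qb/K)` with kernel `G_M`.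
Let `b ∈ K` be a `T`-unit which is an approximate local norm from `M` at the places of `T` above a
rational prime `q ∉ S`.  Then for every valuation subring `A` of `Qb` over `q`:

* either `χ` is trivial on `D_A ∩ G_K` (the place of `K` below `A` splits in `M`),
* or `b * x ^ p` is a unit at `A` for some `x ∈ K` (the place is inert and `p ∣ ord_A b`).

This is the hypothesis `hloc` of the descent cocycle (BrS).
-/

set_option autoImplicit false

open scoped NumberField WithZero Pointwise
open IsDedekindDomain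

namespace Fermat.Agent.S55.Count.BE.Val

local notation "Qb" => AlgebraicClosure ℚ
local notation "Gq" => (AlgebraicClosure ℚ ≃ₐ[ℚ] AlgebraicClosure ℚ)

open Fermat.Agent.S14.Wiring.ValRing Fermat.Agent.CFT.Global.HasseNorm
open Fermat.Agent.S55.Glue.PlacesAbove

section Tower

variable (K M : IntermediateField ℚ Qb) [NumberField K] [NumberField M] [Algebra K M]

omit [NumberField K] [NumberField M] in
/-- Compatibility of the rings of integers with the coercions to `Qb`. -/
theorem coe_algebraMap_integers (hcoe : ∀ x : K, ((algebraMap K M x : M) : Qb) = (x : Qb))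
    (x : 𝓞 K) : (((algebraMap (𝓞 K) (𝓞 M) x : 𝓞 M) : M) : Qb) = ((x : K) : Qb) := by
  rw [← hcoe (x : K)]
  rfl

/-- The prime of `𝓞 M` below `A` lies over the prime of `𝓞 K` below `A`. -/
theorem comap_primeUnder_eq (hcoe : ∀ x : K, ((algebraMap K M x : M) : Qb) = (x : Qb))
    (A : ValuationSubring Qb) :
    (primeUnder M A).comap (algebraMap (𝓞 K) (𝓞 M)) = primeUnder K A :=
  comap_primeUnder A K M (algebraMap (𝓞 K) (𝓞 M)) (coe_algebraMap_integers K M hcoe)

theorem under_placeUnder (hcoe : ∀ x : K, ((algebraMap K M x : M) : Qb) = (x : Qb))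
    (A : ValuationSubring Qb) {ℓ : ℕ} (hℓ : ℓ.Prime) (hA : A.LiesOverPrime ℓ) :
    (placeUnder M A hℓ hA).under (𝓞 K) = placeUnder K A hℓ hA :=
  HeightOneSpectrum.ext (comap_primeUnder_eq K M hcoe A)

omit [NumberField K] [NumberField M] in
theorem le_of_coe (hcoe : ∀ x : K, ((algebraMap K M x : M) : Qb) = (x : Qb)) : K ≤ M := by
  intro x hx
  have h := hcoe ⟨x, hx⟩
  have h2 : ((algebraMap K M ⟨x, hx⟩ : M) : Qb) ∈ M := (algebraMap K M ⟨x, hx⟩).2
  rw [h] at h2
  exact h2

end Tower

section Unram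

variable (K M : IntermediateField ℚ Qb) [NumberField K] [NumberField M] [Algebra K M]

/-- Zpow of the uniformiser `q`. -/
theorem valuation_mul_zpow_eq_one {F : IntermediateField ℚ Qb} [NumberField F]
    (v : HeightOneSpectrum (𝓞 F)) {q : ℕ} (hvq : v.valuation F (q : F) = WithZero.exp (-1 : ℤ))
    (x : F) (hx : x ≠ 0) :
    v.valuation F (x * (q : F) ^ (WithZero.log (v.valuation F x))) = 1 := by
  have hv0 : v.valuation F x ≠ 0 := by rw [Ne, map_eq_zero]; exact hx
  rw [map_mul, map_zpow₀, hvq]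
  conv_lhs => rw [← WithZero.exp_log hv0]
  rw [← WithZero.exp_zsmul, ← WithZero.exp_add, ← WithZero.exp_zero]
  congr 1
  simp

/-- If `M` is unramified outside `S` and `q ∉ S`, then `M / K` is unramified (valuation form) at
every place of `K` above `q`. -/
theorem unramAt_of_isUnramifiedOutside (hcoe : ∀ x : K, ((algebraMap K M x : M) : Qb) = (x : Qb))
    {S : Finset Nat.Primes} (hM : M.IsUnramifiedOutside S) (q : Nat.Primes) (hq : q ∉ S)
    (v : HeightOneSpectrum (𝓞 K)) (hv : ((q : ℕ) : 𝓞 K) ∈ v.asIdeal) : UnramAt K M v := by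
  intro w hw x
  have hKM : K ≤ M := le_of_coe K M hcoe
  have hK : K.IsUnramifiedOutside S := hM.of_le hKM
  obtain ⟨A, hA⟩ := exists_valuationSubring w
  have hvA : v.asIdeal = primeUnder K A := by
    rw [← hw, ← comap_primeUnder_eq K M hcoe A, ← hA]
    rfl
  have hAq : A.LiesOverPrime (q : ℕ) := liesOverPrime_of_natCast_mem hvA hv
  have hw' : w = placeUnder M A q.2 hAq := eq_placeUnder hA q.2 hAq
  have hv' : v = placeUnder K A q.2 hAq := eq_placeUnder hvA q.2 hAq
  have hwq : w.valuation M (((q : ℕ) : ℕ) : M) = WithZero.exp (-1 : ℤ) := by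
    rw [hw']
    exact Fermat.Agent.S55.Count.BrS.valuation_natCast_of_isUnramifiedOutside hM q hq A hAq
  have hvq : v.valuation K (((q : ℕ) : ℕ) : K) = WithZero.exp (-1 : ℤ) := by
    rw [hv']
    exact Fermat.Agent.S55.Count.BrS.valuation_natCast_of_isUnramifiedOutside hK q hq A hAq
  by_cases hx : x = 0
  · subst hx
    simp
  set n : ℤ := WithZero.log (v.valuation K x) with hn
  have h1 : v.valuation K (x * (((q : ℕ) : ℕ) : K) ^ n) = 1 :=
    valuation_mul_zpow_eq_one v hvq x hx
  have h2 : A.valuation (((x * (((q : ℕ) : ℕ) : K) ^ n : K)) : Qb) = 1 :=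
    (valuation_eq_one_iff hvA _).mp h1
  rw [← hcoe] at h2
  have h3 : w.valuation M (algebraMap K M (x * (((q : ℕ) : ℕ) : K) ^ n)) = 1 :=
    (valuation_eq_one_iff hA _).mpr h2
  rw [map_mul, map_zpow₀, map_natCast, map_mul, map_zpow₀, hwq] at h3
  have hv0 : v.valuation K x ≠ 0 := by rw [Ne, map_eq_zero]; exact hx
  have h4 : w.valuation M (algebraMap K M x) = WithZero.exp n := by
    have h5 : (WithZero.exp (-1 : ℤ) : ℤᵐ⁰) ^ n * WithZero.exp n = 1 := by
      rw [← WithZero.exp_zsmul, ← WithZero.exp_add, ← WithZero.exp_zero]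
      congr 1
      simp
    have h6 : (WithZero.exp (-1 : ℤ) : ℤᵐ⁰) ^ n ≠ 0 := by
      rw [← WithZero.exp_zsmul]
      exact WithZero.exp_ne_zero
    rw [mul_comm] at h3
    exact mul_left_cancel₀ h6 (h3.trans h5.symm)
  rw [h4, hn, WithZero.exp_log hv0]

end Unram

section Split

variable (K M : IntermediateField ℚ Qb) [NumberField K] [NumberField M] [Algebra K M]

/-- A character of `G_K` with kernel `G_M` which is nontrivial on the decomposition group of `A`:
then the place of `K` below `A` has only one prime of `M` above it. -/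
theorem nonsplit_of_char_ne_zero (hcoe : ∀ x : K, ((algebraMap K M x : M) : Qb) = (x : Qb))
    {p : ℕ} [Fact p.Prime] (χ : Gq → ZMod p)
    (hχadd : ∀ g ∈ K.fixingSubgroup, ∀ h ∈ K.fixingSubgroup, χ (g * h) = χ g + χ h)
    (hχker : ∀ g ∈ K.fixingSubgroup, χ g = 0 ↔ g ∈ M.fixingSubgroup)
    {ℓ : ℕ} (hℓ : ℓ.Prime) (A : ValuationSubring Qb) (hA : A.LiesOverPrime ℓ)
    (τ : Gq) (hτD : τ ∈ A.decompositionSubgroup ℚ) (hτK : τ ∈ K.fixingSubgroup) (hτ : χ τ ≠ 0) :
    Nonsplit K M (placeUnder K A hℓ hA) := by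
  have hχ1 : χ 1 = 0 := by
    have h := hχadd 1 (one_mem _) 1 (one_mem _)
    rw [mul_one] at h
    exact left_eq_add.mp h
  have hχpow : ∀ i : ℕ, χ (τ ^ i) = (i : ZMod p) * χ τ := by
    intro i
    induction i with
    | zero => simp [hχ1]
    | succ k ih =>
      rw [pow_succ, hχadd _ (pow_mem hτK k) _ hτK, ih]
      push_cast
      ring
  -- every prime of `M` above the place is the prime below `A`
  have key : ∀ w : HeightOneSpectrum (𝓞 M), w.under (𝓞 K) = placeUnder K A hℓ hA →
      w.asIdeal = primeUnder M A := by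
    intro w hw
    obtain ⟨A', hA'⟩ := exists_valuationSubring w
    have hKA : primeUnder K A = primeUnder K A' := by
      rw [← comap_primeUnder_eq K M hcoe A', ← hA']
      exact (congrArg HeightOneSpectrum.asIdeal hw).symm
    obtain ⟨σ, hσK, hσA⟩ := exists_fixing_smul_eq K hℓ hA hKA
    set i : ℕ := (χ σ / χ τ).val with hi
    have hiτ : (i : ZMod p) * χ τ = χ σ := by
      rw [hi, ZMod.natCast_zmod_val, div_mul_cancel₀ _ hτ]
    set h : Gq := σ * (τ ^ i)⁻¹ with hh
    have hhK : h ∈ K.fixingSubgroup := mul_mem hσK (inv_mem (pow_mem hτK i))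
    have hχh : χ h = 0 := by
      have h1 := hχadd h hhK (τ ^ i) (pow_mem hτK i)
      rw [hh, inv_mul_cancel_right, hχpow i, hiτ] at h1
      rw [hh]
      exact right_eq_add.mp h1
    have hhM : h ∈ M.fixingSubgroup := (hχker h hhK).mp hχh
    have hτA : (τ ^ i) • A = A := pow_mem hτD i
    have hσ' : σ = h * τ ^ i := by rw [hh, inv_mul_cancel_right]
    rw [hA', ← hσA, hσ', mul_smul, hτA]
    exact primeUnder_smul_of_mem_fixingSubgroup M A hhM
  intro w w' hw hw'
  exact HeightOneSpectrum.ext ((key w hw).trans (key w' hw').symm)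

end Split

section Main

variable (K M : IntermediateField ℚ Qb) [NumberField K] [NumberField M] [Algebra K M]

/-- **Input (V) of the (BE) assembly = hypothesis `hloc` of (BrS).**  `M / K` Galois of prime degree
`p` inside `Qb`, `M` unramified outside `S`, `χ` a character of `G_K` with kernel `G_M`, `b ∈ K` a
`T`-unit which is an approximate norm from `M` at the places of `T` above `q ∉ S`.  For every
valuation subring `A` of `Qb` over `q`: either `χ` vanishes on `D_A ∩ G_K`, or `b * x ^ p` is a unit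
at `A` for some `x ∈ K`. -/
theorem hloc_of_unit_approxNorm {p : ℕ} (hp : p.Prime) (S : Finset Nat.Primes)
    (hcoe : ∀ x : K, ((algebraMap K M x : M) : Qb) = (x : Qb)) [IsGalois K M]
    (hdeg : Module.finrank K M = p) (hM : M.IsUnramifiedOutside S)
    (χ : Gq → ZMod p)
    (hχadd : ∀ g ∈ K.fixingSubgroup, ∀ h ∈ K.fixingSubgroup, χ (g * h) = χ g + χ h)
    (hχker : ∀ g ∈ K.fixingSubgroup, χ g = 0 ↔ g ∈ M.fixingSubgroup)
    (T : Set (HeightOneSpectrum (𝓞 K))) (b : K)
    (hbT : ∀ v, v ∉ T → v.valuation K b = 1)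
    (q : Nat.Primes) (hq : q ∉ S)
    (hbN : ∀ v ∈ T, ((q : ℕ) : 𝓞 K) ∈ v.asIdeal → ApproxNorm K M v b)
    (A : ValuationSubring Qb) (hA : A.LiesOverPrime (q : ℕ)) :
    (∀ τ ∈ A.decompositionSubgroup ℚ ⊓ K.fixingSubgroup, χ τ = 0) ∨
      ∃ x : K, A.valuation (((b * x ^ p : K)) : Qb) = 1 := by
  have : Fact p.Prime := ⟨hp⟩
  set v : HeightOneSpectrum (𝓞 K) := placeUnder K A q.2 hA with hv
  have hvA : v.asIdeal = primeUnder K A := rfl
  have hvq : ((q : ℕ) : 𝓞 K) ∈ v.asIdeal := (natCast_mem_primeUnder_iff K A q).mpr hA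
  by_cases hvT : v ∈ T
  · by_cases hχ0 : ∀ τ ∈ A.decompositionSubgroup ℚ ⊓ K.fixingSubgroup, χ τ = 0
    · exact Or.inl hχ0
    · right
      push Not at hχ0
      obtain ⟨τ, hτ, hτχ⟩ := hχ0
      have hns : Nonsplit K M v :=
        nonsplit_of_char_ne_zero K M hcoe χ hχadd hχker q.2 A hA τ hτ.1 hτ.2 hτχ
      have hun : UnramAt K M v := unramAt_of_isUnramifiedOutside K M hcoe hM q hq v hvq
      obtain ⟨m, hm⟩ := Fermat.Agent.CFT.Count.BEHyperplane.exists_valuation_eq_exp_mul K M hdeg v
        hns hun b (hbN v hvT hvq)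
      have hK : K.IsUnramifiedOutside S := hM.of_le (le_of_coe K M hcoe)
      have hvq' : v.valuation K (((q : ℕ) : ℕ) : K) = WithZero.exp (-1 : ℤ) :=
        Fermat.Agent.S55.Count.BrS.valuation_natCast_of_isUnramifiedOutside hK q hq A hA
      refine ⟨(((q : ℕ) : ℕ) : K) ^ m, (valuation_eq_one_iff hvA _).mp ?_⟩
      rw [map_mul, map_pow, map_zpow₀, hvq', hm, ← WithZero.exp_zsmul, ← WithZero.exp_nsmul,
        ← WithZero.exp_add, ← WithZero.exp_zero]
      congr 1
      simp
  · right
    refine ⟨1, (valuation_eq_one_iff hvA _).mp ?_⟩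
    rw [one_pow, mul_one]
    exact hbT v hvT

end Main

end Fermat.Agent.S55.Count.BE.Val
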